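import Fermat.Agent.S55.K.Defs

/-!
# S56 / W-BASE, leaf EUL-CL (helper74), part D: Shapiro's lemma in degree 1, cochain form

`V ≤ G` of finite index, `A : Rep k G`, `z : G → Ind_V A = (G ⧸ V →₀ A)` a 1-cocycle.  If the
component `h ↦ z h (1·V)` is a coboundary on `V` (`= h e₀ - e₀` for all `h ∈ V`), then `z` is a
coboundary.
-/

set_option autoImplicit false
set_option linter.style.haveILetI false
set_option linter.unusedSectionVars false

noncomputable section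

namespace Fermat.Agent.S56.Euler.H74

open groupCohomology Fermat.Agent.S55 Fermat.Agent.S55.PT

variable {k : Type} [CommRing k] {G : Type} [Group G]

/-- Evaluation of the induced action. -/
lemma indρ_apply_apply (V : Subgroup G) (A : Rep.{0, 0, 0} k G) (g : G)
    (f : (G ⧸ V) →₀ A) (y : G ⧸ V) :
    (K.indρ (MonoidHom.id G) V A g f) y = A.ρ g (f (g⁻¹ • y)) := by
  classical
  induction f using Finsupp.induction_linear with
  | zero => simp
  | add f₁ f₂ h₁ h₂ => rw [map_add, Finsupp.add_apply, h₁, h₂, Finsupp.add_apply, map_add]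
  | single x a =>
    rw [K.indρ_single, Finsupp.single_apply, Finsupp.single_apply]
    have : ((MonoidHom.id G) g • x = y) ↔ (x = g⁻¹ • y) := by
      constructor
      · intro h
        rw [← h]
        simp
      · intro h
        rw [h]
        simp
    by_cases hxy : x = g⁻¹ • y
    · rw [if_pos hxy, if_pos (this.2 hxy)]
    · rw [if_neg hxy, if_neg (fun h => hxy (this.1 h)), map_zero]

/-- The coefficient of an element of `Ind_V A` at a coset. -/
def coef (V : Subgroup G) (A : Rep.{0, 0, 0} k G) (f : K.indG V A) (y : G ⧸ V) : A :=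
  DFunLike.coe (F := (G ⧸ V) →₀ A) f y

/-- An element of `Ind_V A` from its coefficients. -/
def mkInd (V : Subgroup G) (A : Rep.{0, 0, 0} k G) (f : (G ⧸ V) →₀ A) : K.indG V A := f

lemma coef_mkInd (V : Subgroup G) (A : Rep.{0, 0, 0} k G) (f : (G ⧸ V) →₀ A) (y : G ⧸ V) :
    coef V A (mkInd V A f) y = f y := rfl

lemma coef_add (V : Subgroup G) (A : Rep.{0, 0, 0} k G) (f₁ f₂ : K.indG V A) (y : G ⧸ V) :
    coef V A (f₁ + f₂) y = coef V A f₁ y + coef V A f₂ y :=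
  Finsupp.add_apply (g₁ := (f₁ : (G ⧸ V) →₀ A)) (g₂ := (f₂ : (G ⧸ V) →₀ A)) (a := y)

lemma coef_sub (V : Subgroup G) (A : Rep.{0, 0, 0} k G) (f₁ f₂ : K.indG V A) (y : G ⧸ V) :
    coef V A (f₁ - f₂) y = coef V A f₁ y - coef V A f₂ y :=
  Finsupp.sub_apply (g₁ := (f₁ : (G ⧸ V) →₀ A)) (g₂ := (f₂ : (G ⧸ V) →₀ A)) (a := y)

lemma coef_ρ (V : Subgroup G) (A : Rep.{0, 0, 0} k G) (g : G) (f : K.indG V A) (y : G ⧸ V) :
    coef V A ((K.indG V A).ρ g f) y = A.ρ g (coef V A f (g⁻¹ • y)) :=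
  indρ_apply_apply V A g f y

lemma coef_ext (V : Subgroup G) (A : Rep.{0, 0, 0} k G) {f₁ f₂ : K.indG V A}
    (h : ∀ y, coef V A f₁ y = coef V A f₂ y) : f₁ = f₂ :=
  Finsupp.ext (f := (f₁ : (G ⧸ V) →₀ A)) (g := (f₂ : (G ⧸ V) →₀ A)) h

/-- **Shapiro in degree 1** (injectivity of `H¹(G, Ind_V A) → H¹(V, A)`), cochain form. -/
theorem mem_B1_indG_of_component (V : Subgroup G) [V.FiniteIndex] (A : Rep.{0, 0, 0} k G)
    (z : G → K.indG V A) (hz : z ∈ cocycles₁ (K.indG V A)) (e₀ : A)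
    (he₀ : ∀ h ∈ V, coef V A (z h) ((1 : G) : G ⧸ V) = A.ρ h e₀ - e₀) :
    z ∈ LevelSys.B1 (K.indG V A) := by
  classical
  rw [mem_cocycles₁_iff] at hz
  -- the function `g ↦ g e₀ - z g (g V)` is constant on cosets
  let φ : G → A := fun g => A.ρ g e₀ - coef V A (z g) (g : G ⧸ V)
  have hφ : ∀ (g u : G), u ∈ V → φ (g * u) = φ g := by
    intro g u hu
    show A.ρ (g * u) e₀ - coef V A (z (g * u)) ((g * u : G) : G ⧸ V) =
      A.ρ g e₀ - coef V A (z g) (g : G ⧸ V)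
    have h1 : ((g * u : G) : G ⧸ V) = (g : G ⧸ V) := QuotientGroup.mk_mul_of_mem g hu
    have h2 : g⁻¹ • (g : G ⧸ V) = ((1 : G) : G ⧸ V) := by
      rw [MulAction.Quotient.smul_mk, smul_eq_mul, inv_mul_cancel]
    rw [h1, hz g u, coef_add, coef_ρ, h2, he₀ u hu, map_sub, map_mul]
    simp only [Module.End.mul_apply]
    abel
  -- the candidate
  let E : (G ⧸ V) →₀ A := Finsupp.equivFunOnFinite.symm (fun x : G ⧸ V => φ x.out)
  have hE : ∀ g : G, coef V A (mkInd V A E) (g : G ⧸ V) = φ g := by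
    intro g
    show φ ((g : G ⧸ V).out) = φ g
    obtain ⟨u, hu⟩ := QuotientGroup.mk_out_eq_mul V g
    rw [hu]
    exact hφ g u u.2
  refine ⟨mkInd V A E, ?_⟩
  funext g
  rw [d₀₁_hom_apply]
  apply coef_ext
  intro y
  obtain ⟨x, rfl⟩ := QuotientGroup.mk_surjective y
  have h3 : g⁻¹ • (x : G ⧸ V) = ((g⁻¹ * x : G) : G ⧸ V) := by
    rw [MulAction.Quotient.smul_mk, smul_eq_mul]
  have h4 := hz g (g⁻¹ * x)
  rw [mul_inv_cancel_left] at h4
  have h5 : coef V A (z x) (x : G ⧸ V) =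
      A.ρ g (coef V A (z (g⁻¹ * x)) ((g⁻¹ * x : G) : G ⧸ V)) + coef V A (z g) (x : G ⧸ V) := by
    rw [h4, coef_add, coef_ρ, h3]
  rw [coef_sub, coef_ρ, h3, hE, hE]
  show A.ρ g (A.ρ (g⁻¹ * x) e₀ - coef V A (z (g⁻¹ * x)) ((g⁻¹ * x : G) : G ⧸ V)) -
    (A.ρ x e₀ - coef V A (z x) (x : G ⧸ V)) = _
  rw [h5, map_sub]
  have h7 : A.ρ g (A.ρ (g⁻¹ * x) e₀) = A.ρ x e₀ := by
    rw [← Module.End.mul_apply, ← map_mul, mul_inv_cancel_left]
  rw [h7]
  abel

end Fermat.Agent.S56.Euler.H74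

end
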