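import Fermat.Agent.S56.Euler.H74.ValBasic
import Fermat.Agent.S56.H66.VG0
import Fermat.Agent.S55.K.Defs

/-!
# S56 / W-BASE, leaf EUL-CL (helper74), part B: descent of divisors along unramified extensions

`F ⊆ L ⊆ ℚ̄` finite over `ℚ`, both unramified outside `T`; every prime of `F` not above `T` has a
generator `π` outside `T` (class group killed).  If `a ∈ Lˣ` is such that `h a / a` is a `T`-unit
for all `h ∈ G_F`, then `a = b · (T-unit)` with `b ∈ Fˣ`.
-/

set_option autoImplicit false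
set_option linter.style.haveILetI false
set_option linter.unusedSectionVars false

open NumberField IsDedekindDomain
open scoped Pointwise

namespace Fermat.Agent.S56.Euler.H74

open Fermat.Agent.S55.Bridge Fermat.Agent.S54 Fermat.Agent.S55

local notation "Qb" => AlgebraicClosure ℚ
local notation "GQ" => (AlgebraicClosure ℚ ≃ₐ[ℚ] AlgebraicClosure ℚ)

/-! ### Units at a place -/

section unitGroup

variable (A : ValuationSubring Qb)

lemma mem_unitGroup_iff_mem (x : Qbˣ) :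
    x ∈ A.unitGroup ↔ (x : Qb) ∈ A ∧ ((x⁻¹ : Qbˣ) : Qb) ∈ A := by
  rw [ValuationSubring.mem_unitGroup_iff, ← A.valuation_le_one_iff, ← A.valuation_le_one_iff,
    Units.val_inv_eq_inv_val, map_inv₀]
  have hne : A.valuation (x : Qb) ≠ 0 := (Valuation.ne_zero_iff _).2 x.ne_zero
  constructor
  · intro h
    rw [h, inv_one]
    exact ⟨le_rfl, le_rfl⟩
  · rintro ⟨h1, h2⟩
    exact le_antisymm h1 ((inv_le_one₀ (zero_lt_iff.2 hne)).1 h2)

/-- `S`-units are the elements which are units at all places outside `S`. -/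
lemma isSUnit_iff (S : Finset Nat.Primes) (x : Qbˣ) :
    K.IsSUnit S x ↔ ∀ B : ValuationSubring Qb, K.OutsideS S B → x ∈ B.unitGroup := by
  unfold K.IsSUnit
  refine forall_congr' fun B => forall_congr' fun _ => ?_
  rw [mem_unitGroup_iff_mem]

/-- Galois conjugation of units at a place. -/
lemma smul_mem_unitGroup_smul (τ : GQ) {x : Qbˣ} (hx : x ∈ A.unitGroup) :
    τ • x ∈ (τ • A).unitGroup := by
  rw [mem_unitGroup_iff_mem] at hx ⊢
  rw [mem_smul_valuationSubring_iff, mem_smul_valuationSubring_iff]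
  have h1 : τ⁻¹ (((τ • x : Qbˣ)) : Qb) = (x : Qb) := by
    show τ⁻¹ (τ (x : Qb)) = (x : Qb)
    exact τ.symm_apply_apply _
  have h2 : τ⁻¹ ((((τ • x)⁻¹ : Qbˣ)) : Qb) = ((x⁻¹ : Qbˣ) : Qb) := by
    rw [← smul_inv']
    show τ⁻¹ (τ ((x⁻¹ : Qbˣ) : Qb)) = ((x⁻¹ : Qbˣ) : Qb)
    exact τ.symm_apply_apply _
  rw [h1, h2]
  exact hx

end unitGroup

/-! ### Uniformisers of unramified primes -/

section Unif

variable (F : IntermediateField ℚ Qb) [FiniteDimensional ℚ F]

attribute [local instance] H594.numberField_of_finite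

lemma algebraMap_ringOfIntegers_eq (x : 𝓞 F) :
    algebraMap (𝓞 F) Qb x = ((x : F) : Qb) := rfl

lemma lt_exp_neg_one {x : WithZero (Multiplicative ℤ)} (h : x < WithZero.exp (-1 : ℤ)) :
    x ≤ WithZero.exp (-2 : ℤ) := by
  rcases eq_or_ne x 0 with rfl | hx
  · exact zero_le
  · obtain ⟨k, rfl⟩ : ∃ k : ℤ, x = WithZero.exp k := ⟨WithZero.log x, (WithZero.exp_log hx).symm⟩
    rw [WithZero.exp_lt_exp] at h
    rw [WithZero.exp_le_exp]
    omega

/-- For `x ∈ F`: `x` is a non-unit of `A` iff its valuation at the prime below `A` is `< 1`. -/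
lemma valuation_lt_one_of_mem_nonunits (A : ValuationSubring Qb) {q : ℕ} (hq : q.Prime)
    (hA : A.LiesOverPrime q) (x : F) (hx : (x : Qb) ∈ A.nonunits) :
    (placePrime F A hq hA).valuation F x < 1 := by
  rcases eq_or_ne x 0 with rfl | hx0
  · simp
  have h1 : (placePrime F A hq hA).valuation F x ≤ 1 :=
    (mem_iff_valuation_le_one F A hq hA x).1 (A.nonunits_le hx)
  refine lt_of_le_of_ne h1 (fun h => ?_)
  have h2 : (placePrime F A hq hA).valuation F x⁻¹ ≤ 1 := by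
    rw [map_inv₀, h, inv_one]
  have h3 : ((x⁻¹ : F) : Qb) ∈ A := (mem_iff_valuation_le_one F A hq hA x⁻¹).2 h2
  rw [mem_nonunits_iff_inv_not_mem] at hx
  rcases hx with hx | hx
  · exact hx0 (by exact_mod_cast hx)
  · apply hx
    simpa using h3

/-- **Uniformisers.**  If the inertia group of `A | q` fixes `F` and `π ∈ 𝔭 ∖ 𝔭²`
(`𝔭 = A ∩ 𝒪_F`), then `v_A(π) = v_A(q)`. -/
theorem valuation_unif (A : ValuationSubring Qb) {q : ℕ} (hq : q.Prime)
    (hA : A.LiesOverPrime q) (hI : A.inertiaSubgroupIn ℚ ≤ F.fixingSubgroup)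
    (π : 𝓞 F) (hπ : π ∈ H594.primeBelowF F A) (hπ2 : π ∉ (H594.primeBelowF F A) ^ 2) :
    A.valuation (((π : F) : Qb)) = A.valuation (q : Qb) := by
  have hπA : ((π : F) : Qb) ∈ A.nonunits := (H594.mem_primeBelowF F A π).1 hπ
  have hfix : ∀ σ ∈ A.inertiaSubgroupIn ℚ, σ ((π : F) : Qb) = ((π : F) : Qb) := by
    intro σ hσ
    have := (IntermediateField.mem_fixingSubgroup_iff F σ).1 (hI hσ)
    exact this _ (π : F).2
  have hle : A.valuation (((π : F) : Qb)) ≤ A.valuation (q : Qb) :=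
    Fermat.Agent.S56.H66.vg0_le q hq A hA _ hπA hfix
  refine le_antisymm hle (not_lt.1 fun hlt => hπ2 ?_)
  -- `π / q` is a non-unit of `A`
  have hq0 : (q : Qb) ≠ 0 := by exact_mod_cast hq.ne_zero
  have hqF0 : (q : F) ≠ 0 := by exact_mod_cast hq.ne_zero
  have hqv0 : A.valuation (q : Qb) ≠ 0 := (Valuation.ne_zero_iff _).2 hq0
  have hy : ((((π : F) / (q : F) : F)) : Qb) ∈ A.nonunits := by
    rw [ValuationSubring.mem_nonunits_iff]
    have : ((((π : F) / (q : F) : F)) : Qb) = ((π : F) : Qb) / (q : Qb) := by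
      push_cast
      rfl
    rw [this, map_div₀]
    exact (div_lt_one₀ (zero_lt_iff.2 hqv0)).2 hlt
  have hw := valuation_lt_one_of_mem_nonunits F A hq hA _ hy
  set w := placePrime F A hq hA with hw_def
  rw [map_div₀] at hw
  have hwq0 : w.valuation F (q : F) ≠ 0 := (Valuation.ne_zero_iff _).2 hqF0
  have hw2 : w.valuation F (π : F) < w.valuation F (q : F) :=
    (div_lt_one₀ (zero_lt_iff.2 hwq0)).1 hw
  -- pass to `intValuation`
  have e1 : w.valuation F (π : F) = w.intValuation π := w.valuation_of_algebraMap π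
  have e2 : w.valuation F (q : F) = w.intValuation (q : 𝓞 F) := by
    have := w.valuation_of_algebraMap (K := F) (q : 𝓞 F)
    rw [← this]
    congr 1
  have hqmem : (q : 𝓞 F) ∈ w.asIdeal ^ 1 := by
    rw [pow_one]
    exact H594.natCast_mem_primeBelowF F A hA
  have hq1 : w.intValuation (q : 𝓞 F) ≤ WithZero.exp (-(1 : ℤ)) := by
    have := (w.intValuation_le_pow_iff_mem (q : 𝓞 F) 1).2 hqmem
    simpa using this
  rw [e1, e2] at hw2
  have hπ1 : w.intValuation π ≤ WithZero.exp (-(2 : ℤ)) :=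
    lt_exp_neg_one (lt_of_lt_of_le hw2 hq1)
  have := (w.intValuation_le_pow_iff_mem π 2).1 (by simpa using hπ1)
  exact this

end Unif

/-! ### The descent -/

section Descent

variable (F : IntermediateField ℚ Qb) [FiniteDimensional ℚ F]

attribute [local instance] H594.numberField_of_finite

/-- The unit of `ℚ̄` attached to a unit of `F`. -/
noncomputable def toQb : Fˣ →* Qbˣ := Units.map ((algebraMap F Qb : F →+* Qb) : F →* Qb)

@[simp] lemma coe_toQb (c : Fˣ) : ((toQb F c : Qbˣ) : Qb) = ((c : F) : Qb) := rfl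

lemma smul_toQb (τ : GQ) (hτ : τ ∈ F.fixingSubgroup) (c : Fˣ) : τ • toQb F c = toQb F c := by
  apply Units.ext
  show τ ((c : F) : Qb) = ((c : F) : Qb)
  exact (IntermediateField.mem_fixingSubgroup_iff F τ).1 hτ _ (c : F).2

variable {F}

/-- A place over a prime outside `T` is outside `T`. -/
lemma outsideS_of_liesOver (T : Finset Nat.Primes) (A : ValuationSubring Qb) {q : ℕ}
    (hq : q.Prime) (hA : A.LiesOverPrime q) (hqT : (⟨q, hq⟩ : Nat.Primes) ∉ T) :
    K.OutsideS T A := by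
  intro q' hq' hA'
  apply hqT
  have := prime_unique A hq q'.2 hA hA'
  have h2 : (⟨q, hq⟩ : Nat.Primes) = q' := Subtype.ext this
  rw [h2]
  exact hq'

/-- `N ∉ A ∩ 𝒪_F` when all prime factors of `N` are in `T` and `A` is over a prime outside `T`. -/
lemma natCast_notMem_primeBelowF (T : Finset Nat.Primes) (N : ℕ)
    (hNT : ∀ q : Nat.Primes, (q : ℕ) ∣ N → q ∈ T) (A : ValuationSubring Qb) {q : ℕ}
    (hq : q.Prime) (hA : A.LiesOverPrime q) (hqT : (⟨q, hq⟩ : Nat.Primes) ∉ T) :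
    (N : 𝓞 F) ∉ H594.primeBelowF F A := by
  intro h
  rw [H594.mem_primeBelowF, map_natCast, ValuationSubring.mem_nonunits_iff] at h
  have h1 : A.valuation (N : Qb) = 1 :=
    val_natCast_eq_one_of_not_dvd A hq hA N (fun hd => hqT (hNT ⟨q, hq⟩ hd))
  rw [h1] at h
  exact lt_irrefl _ h

variable (F)

/-- The local generator at a prime `𝔭` of `F`. -/
theorem exists_local_generator (T : Finset Nat.Primes) (L : IntermediateField ℚ Qb)
    (hF : F.IsUnramifiedOutside T) (hL : L.IsUnramifiedOutside T)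
    (N : ℕ) (hNT : ∀ q : Nat.Primes, (q : ℕ) ∣ N → q ∈ T)
    (hgen : ∀ 𝔭 : HeightOneSpectrum (𝓞 F), (N : 𝓞 F) ∉ 𝔭.asIdeal →
      ∃ π : 𝓞 F, π ∈ 𝔭.asIdeal ∧ π ∉ 𝔭.asIdeal ^ 2 ∧
        ∀ 𝔮 : HeightOneSpectrum (𝓞 F), 𝔮 ≠ 𝔭 → (N : 𝓞 F) ∉ 𝔮.asIdeal → π ∉ 𝔮.asIdeal)
    (a : Qbˣ) (haL : (a : Qb) ∈ L)
    (hinv : ∀ h ∈ F.fixingSubgroup, K.IsSUnit T (h • a / a))
    (𝔭 : HeightOneSpectrum (𝓞 F)) :
    ∃ c : Fˣ, ∀ (A : ValuationSubring Qb) (q : ℕ) (hq : q.Prime), A.LiesOverPrime q →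
      (⟨q, hq⟩ : Nat.Primes) ∉ T →
        (H594.primeBelowF F A = 𝔭.asIdeal → a / toQb F c ∈ A.unitGroup) ∧
        (H594.primeBelowF F A ≠ 𝔭.asIdeal → toQb F c ∈ A.unitGroup) := by
  classical
  by_cases hex : ∃ (A : ValuationSubring Qb) (q : ℕ) (hq : q.Prime), A.LiesOverPrime q ∧
      (⟨q, hq⟩ : Nat.Primes) ∉ T ∧ H594.primeBelowF F A = 𝔭.asIdeal
  swap
  · refine ⟨1, fun A q hq hA hqT => ⟨fun h => ?_, fun _ => ?_⟩⟩
    · exact absurd ⟨A, q, hq, hA, hqT, h⟩ hex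
    · rw [map_one]
      exact one_mem _
  obtain ⟨A₀, q, hq, hA₀, hqT, hPA₀⟩ := hex
  have hN𝔭 : (N : 𝓞 F) ∉ 𝔭.asIdeal := by
    rw [← hPA₀]
    exact natCast_notMem_primeBelowF T N hNT A₀ hq hA₀ hqT
  obtain ⟨π, hπ1, hπ2, hπ3⟩ := hgen 𝔭 hN𝔭
  have hIF : A₀.inertiaSubgroupIn ℚ ≤ F.fixingSubgroup := hF.2 ⟨q, hq⟩ hqT A₀ hA₀
  have hIL : A₀.inertiaSubgroupIn ℚ ≤ L.fixingSubgroup := hL.2 ⟨q, hq⟩ hqT A₀ hA₀
  -- the exponent
  have hafix : ∀ σ ∈ A₀.inertiaSubgroupIn ℚ, σ (a : Qb) = (a : Qb) := fun σ hσ =>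
    (IntermediateField.mem_fixingSubgroup_iff L σ).1 (hIL hσ) _ haL
  obtain ⟨n, hn⟩ := Fermat.Agent.S56.H66.vg0 q hq A₀ hA₀ (a : Qb) a.ne_zero hafix
  have hunif : A₀.valuation (((π : F) : Qb)) = A₀.valuation (q : Qb) :=
    valuation_unif F A₀ hq hA₀ hIF π (by rw [hPA₀]; exact hπ1) (by rw [hPA₀]; exact hπ2)
  have hπ0 : (π : F) ≠ 0 := by
    intro h0
    apply hπ2
    have : π = 0 := by exact_mod_cast h0
    rw [this]
    exact Ideal.zero_mem _
  set πF : Fˣ := Units.mk0 (π : F) hπ0 with hπF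
  refine ⟨πF ^ n, fun A q' hq' hA hq'T => ⟨fun hPA => ?_, fun hPA => ?_⟩⟩
  · -- `A` is over `𝔭`
    have hAq : A.LiesOverPrime q := by
      have h1 : (q : 𝓞 F) ∈ H594.primeBelowF F A := by
        rw [hPA, ← hPA₀]
        exact H594.natCast_mem_primeBelowF F A₀ hA₀
      have := (H594.mem_primeBelowF F A _).1 h1
      rwa [map_natCast] at this
    -- units at `A₀`
    have h0 : a / toQb F (πF ^ n) ∈ A₀.unitGroup := by
      rw [ValuationSubring.mem_unitGroup_iff, Units.val_div_eq_div_val, map_div₀, map_zpow,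
        Units.val_zpow_eq_zpow_val, map_zpow₀, coe_toQb]
      have : ((πF : F) : Qb) = ((π : F) : Qb) := rfl
      rw [this, hunif, hn]
      have hqv0 : A₀.valuation (q : Qb) ≠ 0 :=
        (Valuation.ne_zero_iff _).2 (by exact_mod_cast hq.ne_zero)
      exact div_self (zpow_ne_zero _ hqv0)
    -- conjugacy
    have hrestr : ∀ x ∈ F, x ∈ A₀ ↔ x ∈ A := by
      intro x hx
      have e1 := mem_iff_valuation_le_one F A₀ hq hA₀ ⟨x, hx⟩
      have e2 := mem_iff_valuation_le_one F A hq hAq ⟨x, hx⟩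
      have e3 : placePrime F A₀ hq hA₀ = placePrime F A hq hAq :=
        HeightOneSpectrum.ext (by rw [placePrime_asIdeal, placePrime_asIdeal, hPA₀, hPA])
      rw [e3] at e1
      exact e1.trans e2.symm
    obtain ⟨τ, hτ, hτA⟩ := exists_smul_eq_of_restrict_eq F hq hA₀ hAq hrestr
    have h1 : τ • (a / toQb F (πF ^ n)) ∈ A.unitGroup := by
      rw [← hτA]
      exact smul_mem_unitGroup_smul A₀ τ h0
    rw [smul_div', smul_toQb F τ hτ] at h1
    have hout : K.OutsideS T A := outsideS_of_liesOver T A hq' hA hq'T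
    have h2 : τ • a / a ∈ A.unitGroup := (isSUnit_iff T _).1 (hinv τ hτ) A hout
    have h3 : a / toQb F (πF ^ n) = (τ • a / toQb F (πF ^ n)) / (τ • a / a) := by
      rw [div_div_div_cancel_left]
    rw [h3]
    exact div_mem h1 h2
  · -- `A` is over another prime
    have h𝔮 : placePrime F A hq' hA ≠ 𝔭 := by
      intro h
      apply hPA
      rw [← h, placePrime_asIdeal]
    have hN𝔮 : (N : 𝓞 F) ∉ (placePrime F A hq' hA).asIdeal :=
      natCast_notMem_primeBelowF T N hNT A hq' hA hq'T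
    have hπ𝔮 : π ∉ H594.primeBelowF F A := hπ3 _ h𝔮 hN𝔮
    have hv : A.valuation (algebraMap (𝓞 F) Qb π) = 1 :=
      valuation_eq_one_of_notMem_primeBelowF F A π hπ𝔮
    have hmem : toQb F πF ∈ A.unitGroup := by
      rw [ValuationSubring.mem_unitGroup_iff]
      exact hv
    rw [map_zpow]
    exact zpow_mem hmem n

/-- **Descent.**  If `a ∈ Lˣ` has `G_F`-invariant divisor outside `T`, then `a = b · (T-unit)`
with `b ∈ Fˣ`. -/
theorem exists_descent (T : Finset Nat.Primes) (L : IntermediateField ℚ Qb)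
    (hF : F.IsUnramifiedOutside T) (hL : L.IsUnramifiedOutside T)
    (N : ℕ) (hNT : ∀ q : Nat.Primes, (q : ℕ) ∣ N → q ∈ T)
    (hgen : ∀ 𝔭 : HeightOneSpectrum (𝓞 F), (N : 𝓞 F) ∉ 𝔭.asIdeal →
      ∃ π : 𝓞 F, π ∈ 𝔭.asIdeal ∧ π ∉ 𝔭.asIdeal ^ 2 ∧
        ∀ 𝔮 : HeightOneSpectrum (𝓞 F), 𝔮 ≠ 𝔭 → (N : 𝓞 F) ∉ 𝔮.asIdeal → π ∉ 𝔮.asIdeal)
    (a : Qbˣ) (haL : (a : Qb) ∈ L)
    (hinv : ∀ h ∈ F.fixingSubgroup, K.IsSUnit T (h • a / a)) :
    ∃ b : Fˣ, K.IsSUnit T (a / toQb F b) := by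
  classical
  obtain ⟨M, hM, hMunit⟩ := exists_unit_away a
  choose c hc using exists_local_generator F T L hF hL N hNT hgen a haL hinv
  have hM0 : Ideal.span {(M : 𝓞 F)} ≠ 0 := by
    rw [Ideal.zero_eq_bot, Ne, Ideal.span_singleton_eq_bot]
    exact_mod_cast hM
  have hfin : {v : HeightOneSpectrum (𝓞 F) | v.asIdeal ∣ Ideal.span {(M : 𝓞 F)}}.Finite :=
    Ideal.finite_factors hM0
  refine ⟨∏ 𝔭 ∈ hfin.toFinset, c 𝔭, ?_⟩
  rw [isSUnit_iff]
  intro A hA
  by_cases hprime : ∃ q : ℕ, q.Prime ∧ A.LiesOverPrime q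
  · obtain ⟨q, hq, hAq⟩ := hprime
    have hqT : (⟨q, hq⟩ : Nat.Primes) ∉ T := fun h => hA ⟨q, hq⟩ h hAq
    have hother : ∀ 𝔭 : HeightOneSpectrum (𝓞 F), 𝔭 ≠ placePrime F A hq hAq →
        toQb F (c 𝔭) ∈ A.unitGroup := by
      intro 𝔭 hne
      refine ((hc 𝔭) A q hq hAq hqT).2 (fun h => hne ?_)
      exact HeightOneSpectrum.ext (by rw [placePrime_asIdeal, h])
    by_cases hB : placePrime F A hq hAq ∈ hfin.toFinset
    · rw [map_prod, ← Finset.mul_prod_erase _ _ hB, ← div_div]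
      apply div_mem
      · exact ((hc (placePrime F A hq hAq)) A q hq hAq hqT).1 rfl
      · apply prod_mem
        intro 𝔭 h𝔭
        exact hother 𝔭 (Finset.ne_of_mem_erase h𝔭)
    · have hMA : ¬ q ∣ M := by
        intro hd
        apply hB
        rw [Set.Finite.mem_toFinset]
        show (placePrime F A hq hAq).asIdeal ∣ Ideal.span {(M : 𝓞 F)}
        rw [Ideal.dvd_span_singleton]
        obtain ⟨k, rfl⟩ := hd
        rw [Nat.cast_mul]
        exact Ideal.mul_mem_right _ _ (H594.natCast_mem_primeBelowF F A hAq)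
      have ha : a ∈ A.unitGroup := (mem_unitGroup_iff_mem A a).2 (hMunit A q hq hAq hMA)
      apply div_mem ha
      rw [map_prod]
      apply prod_mem
      intro 𝔭 h𝔭
      exact hother 𝔭 (fun h => hB (h ▸ h𝔭))
  · push Not at hprime
    rw [mem_unitGroup_iff_mem]
    exact ⟨mem_of_no_prime A (fun q hq => hprime q hq) _,
      mem_of_no_prime A (fun q hq => hprime q hq) _⟩

end Descent

end Fermat.Agent.S56.Euler.H74
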