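import Fermat.Agent.S56.Euler.H74.ClassKill
import Fermat.Agent.S56.Euler.H74.ValDescent
import Fermat.Agent.S56.Euler.H74.ShapiroH1
import Fermat.Agent.S55.G.Rec.HP.LocH90

/-!
# S56 / W-BASE, leaf EUL-CL (helper74): killing `H¹_T(Ind_U 𝔼_T) = Cl_T(F)`

For every `S`-level `U = G_F` there is a finite `S' ⊇ S` such that for ALL finite `T ⊇ S'`

    `H¹_T(G_ℚ, Ind_U 𝔼_T) = 0`     (`𝔼_T = K.sUnits T`, the `T`-units of `ℚ̄`),

in cochain form: every `T`-level-constant 1-cocycle `G_ℚ → Ind_U 𝔼_T` is a coboundary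
(`cl`).  In particular `H¹_T(Ind_U 𝔼_T)[p] = 0` for every `p` (`cl_tors`).

Proof: Shapiro (`ShapiroH1`), Hilbert 90 at finite level (`G.Rec.HP.exists_hilbert90_level`),
descent of the divisor of the Hilbert-90 element to `F` (`ValDescent`: the extension is
unramified outside `T`, the class group of `F` is generated by primes above `S'`: `ClassKill`).

Nothing unproved in this file.
-/

set_option autoImplicit false
set_option linter.style.haveILetI false
set_option linter.unusedSectionVars false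

open NumberField IsDedekindDomain
open scoped Pointwise

noncomputable section

namespace Fermat.Agent.S56.Euler.H74

open groupCohomology Fermat.Agent.S55 Fermat.Agent.S55.PT Fermat.Agent.S55.Bridge

local notation "Qb" => AlgebraicClosure ℚ

attribute [local instance] isAlgebraic_Qbar isGalois_Qbar

/-! ### The unit underlying an element of `𝔼_T` -/

section unitOf

variable (T : Finset Nat.Primes)

/-- The unit of `ℚ̄` underlying an element of `𝔼_T`. -/
def unitOf (x : K.sUnits T) : Qbˣ := Additive.toMul (K.sUnitsIncl T x)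

lemma unitOf_isSUnit (x : K.sUnits T) : K.IsSUnit T (unitOf T x) := x.2

lemma unitOf_injective : Function.Injective (unitOf T) := fun _ _ h =>
  Subtype.val_injective (Additive.toMul.injective h)

lemma unitOf_ρ (g : GQ) (x : K.sUnits T) : unitOf T ((K.sUnits T).ρ g x) = g • unitOf T x := rfl

lemma unitOf_add (x y : K.sUnits T) : unitOf T (x + y) = unitOf T x * unitOf T y := rfl

lemma unitOf_sub (x y : K.sUnits T) : unitOf T (x - y) = unitOf T x / unitOf T y := rfl

/-- An element of `𝔼_T` from a `T`-unit. -/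
def ofUnit (u : Qbˣ) (hu : K.IsSUnit T u) : K.sUnits T := ⟨Additive.ofMul u, hu⟩

lemma unitOf_ofUnit (u : Qbˣ) (hu : K.IsSUnit T u) : unitOf T (ofUnit T u hu) = u := rfl

end unitOf

/-- `G_F` has finite index. -/
lemma finiteIndex_fixingSubgroup (F : IntermediateField ℚ Qb) [FiniteDimensional ℚ F] :
    F.fixingSubgroup.FiniteIndex := by
  haveI : Finite (GQ ⧸ F.fixingSubgroup) :=
    Subgroup.quotient_finite_of_isOpen F.fixingSubgroup F.fixingSubgroup_isOpen
  exact Subgroup.finiteIndex_of_finite_quotient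

section

variable (F : IntermediateField ℚ Qb) [FiniteDimensional ℚ F]

attribute [local instance] H594.numberField_of_finite

/-- **Part C.**  A `T`-level-constant 1-cocycle `G_F → 𝔼_T` is a coboundary, if the class group
of `F` is killed by `T`. -/
theorem exists_coboundary_on (T : Finset Nat.Primes) (hF : F.IsUnramifiedOutside T)
    (N : ℕ) (hNT : ∀ q : Nat.Primes, (q : ℕ) ∣ N → q ∈ T)
    (hgen : ∀ 𝔭 : HeightOneSpectrum (𝓞 F), (N : 𝓞 F) ∉ 𝔭.asIdeal →
      ∃ π : 𝓞 F, π ∈ 𝔭.asIdeal ∧ π ∉ 𝔭.asIdeal ^ 2 ∧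
        ∀ 𝔮 : HeightOneSpectrum (𝓞 F), 𝔮 ≠ 𝔭 → (N : 𝓞 F) ∉ 𝔮.asIdeal → π ∉ 𝔮.asIdeal)
    (c : GQ → K.sUnits T)
    (hcoc : ∀ h ∈ F.fixingSubgroup, ∀ h' ∈ F.fixingSubgroup,
      c (h * h') = (K.sUnits T).ρ h (c h') + c h)
    (hlc : ∃ W ∈ (globalLevels T).levels, ∀ h : GQ, ∀ s ∈ W, c (h * s) = c h) :
    ∃ e : K.sUnits T, ∀ h ∈ F.fixingSubgroup, c h = (K.sUnits T).ρ h e - e := by
  classical
  obtain ⟨W, ⟨L₀, hL₀, rfl⟩, hW⟩ := hlc
  -- a Galois level below `F` and `L₀`
  obtain ⟨L, hL, hLgal, hle⟩ := exists_galois_level_ge T (F ⊔ L₀) (hF.sup hL₀)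
  haveI : FiniteDimensional ℚ L := hL.1
  haveI : IsGalois ℚ L := hLgal
  have hLnorm : @Normal ℚ L _ _ (IntermediateField.algebra' L) := by
    have e : (IntermediateField.algebra' L : Algebra ℚ L) = DivisionRing.toRatAlgebra :=
      Subsingleton.elim _ _
    rw [e]
    exact IsGalois.to_normal
  have hLF : L.fixingSubgroup ≤ F.fixingSubgroup :=
    IntermediateField.fixingSubgroup_antitone (le_sup_left.trans hle)
  have hLL₀ : L.fixingSubgroup ≤ L₀.fixingSubgroup :=
    IntermediateField.fixingSubgroup_antitone (le_sup_right.trans hle)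
  -- Hilbert 90
  let β : ↥F.fixingSubgroup → Qbˣ := fun h => unitOf T (c h)
  have hβcoc : ∀ n n' : ↥F.fixingSubgroup, β (n * n') = (n : GQ) • β n' * β n := by
    intro n n'
    show unitOf T (c ((n : GQ) * (n' : GQ))) = _
    rw [hcoc n n.2 n' n'.2, unitOf_add, unitOf_ρ]
  have hβconst : ∀ n s : ↥F.fixingSubgroup, (s : GQ) ∈ L.fixingSubgroup → β (n * s) = β n := by
    intro n s hs
    show unitOf T (c ((n : GQ) * (s : GQ))) = unitOf T (c n)
    rw [hW n s (hLL₀ hs)]
  obtain ⟨a, ha⟩ := @G.Rec.HP.exists_hilbert90_level ℚ Qb _ _ _ _ F.fixingSubgroup L _ hLnorm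
    hLF β hβcoc hβconst
  -- `a ∈ L`
  have hβ1 : β 1 = 1 := by
    rw [ha 1]
    simp
  have haL : (a : Qb) ∈ L := by
    apply mem_of_fixed_by_fixingSubgroup
    intro s hs
    have h1 := hβconst 1 ⟨s, hLF hs⟩ hs
    rw [one_mul, hβ1, ha ⟨s, hLF hs⟩] at h1
    have h2 : s • a = a := div_eq_one.1 h1
    exact congrArg Units.val h2
  -- invariance of the divisor
  have hinv : ∀ h ∈ F.fixingSubgroup, K.IsSUnit T (h • a / a) := by
    intro h hh
    rw [← ha ⟨h, hh⟩]
    exact unitOf_isSUnit T _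
  obtain ⟨b, hb⟩ := exists_descent F T L hF hL N hNT hgen a haL hinv
  refine ⟨ofUnit T (a / toQb F b) hb, fun h hh => ?_⟩
  apply unitOf_injective
  rw [unitOf_sub, unitOf_ρ, unitOf_ofUnit, smul_div', smul_toQb F h hh, div_div_div_cancel_right]
  exact ha ⟨h, hh⟩

end

/-- The primes dividing `N`, as a finite set of `Nat.Primes`. -/
def primesOf (N : ℕ) : Finset Nat.Primes :=
  N.primeFactors.subtype Nat.Prime

lemma mem_primesOf {N : ℕ} (hN : N ≠ 0) (q : Nat.Primes) (hq : (q : ℕ) ∣ N) :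
    q ∈ primesOf N := by
  have hmem : (q : ℕ) ∈ N.primeFactors := Nat.mem_primeFactors.2 ⟨q.2, hq, hN⟩
  exact Finset.mem_subtype.2 hmem

/-- **EUL-CL.**  For every `S`-level `U` there is a finite `S' ⊇ S` such that for all `T ⊇ S'`
every `T`-level-constant 1-cocycle with values in `Ind_U 𝔼_T` is a coboundary:
`H¹_T(Ind_U 𝔼_T) = Cl_T(K_U) = 0`. -/
theorem cl (S : Finset Nat.Primes) (U : Subgroup GQ) (hU : U ∈ (globalLevels S).levels) :
    ∃ S' : Finset Nat.Primes, S ⊆ S' ∧ ∀ T : Finset Nat.Primes, S' ⊆ T →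
      ∀ z ∈ (globalLevels T).Z1 (K.indG U (K.sUnits T)),
        z ∈ LevelSys.B1 (K.indG U (K.sUnits T)) := by
  classical
  obtain ⟨F, hF, rfl⟩ := hU
  haveI : FiniteDimensional ℚ F := hF.1
  haveI : NumberField F := H594.numberField_of_finite F
  obtain ⟨N, hN, hgen⟩ := exists_prime_generators F
  refine ⟨S ∪ primesOf N, Finset.subset_union_left, fun T hT z hz => ?_⟩
  have hFT : F.IsUnramifiedOutside T := hF.mono (Finset.subset_union_left.trans hT)
  have hNT : ∀ q : Nat.Primes, (q : ℕ) ∣ N → q ∈ T := fun q hq =>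
    hT (Finset.mem_union_right _ (mem_primesOf hN q hq))
  haveI : F.fixingSubgroup.FiniteIndex := finiteIndex_fixingSubgroup F
  obtain ⟨hzc, hzl⟩ := (Submodule.mem_inf.1 hz)
  have hzc' := (mem_cocycles₁_iff z).1 hzc
  -- the component at the trivial coset
  let c : GQ → K.sUnits T := fun h =>
    coef F.fixingSubgroup (K.sUnits T) (z h) ((1 : GQ) : GQ ⧸ F.fixingSubgroup)
  have hcoc : ∀ h ∈ F.fixingSubgroup, ∀ h' ∈ F.fixingSubgroup,
      c (h * h') = (K.sUnits T).ρ h (c h') + c h := by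
    intro h hh h' _
    show coef _ _ (z (h * h')) _ = _
    rw [hzc' h h', coef_add, coef_ρ]
    have : h⁻¹ • ((1 : GQ) : GQ ⧸ F.fixingSubgroup) = ((1 : GQ) : GQ ⧸ F.fixingSubgroup) := by
      rw [MulAction.Quotient.smul_mk, smul_eq_mul, mul_one, ← one_mul h⁻¹]
      exact QuotientGroup.mk_mul_of_mem 1 (inv_mem hh)
    rw [this]
  have hlc : ∃ W ∈ (globalLevels T).levels, ∀ h : GQ, ∀ s ∈ W, c (h * s) = c h := by
    obtain ⟨W, hW, hconst⟩ := hzl
    exact ⟨W, hW, fun h s hs => by show coef _ _ (z (h * s)) _ = coef _ _ (z h) _; rw [hconst h s hs]⟩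
  obtain ⟨e, he⟩ := exists_coboundary_on F T hFT N hNT hgen c hcoc hlc
  exact mem_B1_indG_of_component F.fixingSubgroup (K.sUnits T) z hzc e he

/-- **EUL-CL, `p`-torsion form**: `H¹_T(Ind_U 𝔼_T)[p] = 0` for `T ⊇ S'`. -/
theorem cl_tors (S : Finset Nat.Primes) (U : Subgroup GQ) (hU : U ∈ (globalLevels S).levels) :
    ∃ S' : Finset Nat.Primes, S ⊆ S' ∧ ∀ T : Finset Nat.Primes, S' ⊆ T → ∀ p : ℕ,
      ∀ z ∈ (globalLevels T).Z1 (K.indG U (K.sUnits T)),
        p • z ∈ LevelSys.B1 (K.indG U (K.sUnits T)) →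
          z ∈ LevelSys.B1 (K.indG U (K.sUnits T)) := by
  obtain ⟨S', hS, h⟩ := cl S U hU
  exact ⟨S', hS, fun T hT _ z hz _ => h T hT z hz⟩

end Fermat.Agent.S56.Euler.H74

end
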