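import Fermat.Agent.S56.Euler.H74.Cl
import Fermat.Agent.S56.Euler.H184.Kum

/-!
# S56 / W-BASE, leaf EUL-CL (helper74): adapter to helper184's `NoPTorsH1E`

`exists_noPTorsH1E` : for a level `U` of `S₀` and any finite `S₁ ⊇ S₀` there is a finite
`S ⊇ S₁` such that `H184.NoPTorsH1E p T U` holds for ALL `T ⊇ S` (monotone form, as needed by
CHAR-EULER-BIG: first enlarge `S₀` to `S₁` by SHA, then to `S` by CL).

Nothing unproved in this file.
-/

set_option autoImplicit false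

namespace Fermat.Agent.S56.Euler.H74

open Fermat.Agent.S55 Fermat.Agent.S55.PT

/-- Levels are monotone in the set of primes. -/
lemma mem_levels_mono {S₀ S₁ : Finset Nat.Primes} (h : S₀ ⊆ S₁) {U : Subgroup GQ}
    (hU : U ∈ (globalLevels S₀).levels) : U ∈ (globalLevels S₁).levels := by
  obtain ⟨F, hF, rfl⟩ := hU
  exact ⟨F, hF.mono h, rfl⟩

/-- **EUL-CL**, in the shape consumed by EUL-KUM / CHAR-EULER-BIG. -/
theorem exists_noPTorsH1E (p : ℕ) [Fact p.Prime] (S₀ S₁ : Finset Nat.Primes) (h : S₀ ⊆ S₁)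
    (U : Subgroup GQ) (hU : U ∈ (globalLevels S₀).levels) :
    ∃ S : Finset Nat.Primes, S₁ ⊆ S ∧ ∀ T : Finset Nat.Primes, S ⊆ T →
      H184.NoPTorsH1E p T U := by
  obtain ⟨S, hS, hcl⟩ := cl S₁ U (mem_levels_mono h hU)
  exact ⟨S, hS, fun T hT z hz _ => hcl T hT z hz⟩

end Fermat.Agent.S56.Euler.H74
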