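import Mathlib

/-!
# S56 / W-BASE, leaf EUL-CL (helper74), part A: killing the class group (Mathlib only)

For a number field `K` there is a nonzero natural number `N` such that every finite prime `𝔭`
of `K` not containing `N` is "principal outside `N`": there is `π ∈ 𝒪_K` with
`π ∈ 𝔭 ∖ 𝔭²` and `π ∉ 𝔮` for every other prime `𝔮` not containing `N`.

(`N` = product of the absolute norms of integral representatives of the ideal classes.)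
-/

set_option autoImplicit false
set_option linter.style.haveILetI false

open NumberField IsDedekindDomain

namespace Fermat.Agent.S56.Euler.H74

/-- **Killing the class group.** -/
theorem exists_prime_generators (K : Type*) [Field K] [NumberField K] :
    ∃ N : ℕ, N ≠ 0 ∧ ∀ 𝔭 : HeightOneSpectrum (𝓞 K), (N : 𝓞 K) ∉ 𝔭.asIdeal →
      ∃ π : 𝓞 K, π ∈ 𝔭.asIdeal ∧ π ∉ 𝔭.asIdeal ^ 2 ∧
        ∀ 𝔮 : HeightOneSpectrum (𝓞 K), 𝔮 ≠ 𝔭 → (N : 𝓞 K) ∉ 𝔮.asIdeal → π ∉ 𝔮.asIdeal := by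
  classical
  letI : Fintype (ClassGroup (𝓞 K)) := Fintype.ofFinite _
  -- integral representatives of the classes
  choose rep hrep using
    (ClassGroup.mk0_surjective : Function.Surjective (ClassGroup.mk0 (R := 𝓞 K)))
  have hrep0 : ∀ C, ((rep C : nonZeroDivisors (Ideal (𝓞 K))) : Ideal (𝓞 K)) ≠ ⊥ := fun C =>
    mem_nonZeroDivisors_iff_ne_zero.1 (rep C).2
  refine ⟨∏ C : ClassGroup (𝓞 K), Ideal.absNorm ((rep C : nonZeroDivisors (Ideal (𝓞 K))) :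
    Ideal (𝓞 K)), ?_, ?_⟩
  · rw [Finset.prod_ne_zero_iff]
    intro C _ h
    exact hrep0 C (Ideal.absNorm_eq_zero_iff.1 h)
  intro 𝔭 hN
  -- a representative of the inverse class
  have h𝔭0 : 𝔭.asIdeal ∈ nonZeroDivisors (Ideal (𝓞 K)) :=
    mem_nonZeroDivisors_iff_ne_zero.2 𝔭.ne_bot
  set 𝔞 : nonZeroDivisors (Ideal (𝓞 K)) := rep (ClassGroup.mk0 ⟨𝔭.asIdeal, h𝔭0⟩)⁻¹ with h𝔞
  have h𝔞cls : ClassGroup.mk0 𝔞 = (ClassGroup.mk0 ⟨𝔭.asIdeal, h𝔭0⟩)⁻¹ := hrep _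
  -- primes not containing `N` do not contain `𝔞`
  have hnotle : ∀ 𝔮 : HeightOneSpectrum (𝓞 K),
      ((∏ C : ClassGroup (𝓞 K), Ideal.absNorm ((rep C : nonZeroDivisors (Ideal (𝓞 K))) :
        Ideal (𝓞 K)) : ℕ) : 𝓞 K) ∉ 𝔮.asIdeal → ¬ ((𝔞 : Ideal (𝓞 K)) ≤ 𝔮.asIdeal) := by
    intro 𝔮 h𝔮 hle
    apply h𝔮
    have h1 : ((Ideal.absNorm (𝔞 : Ideal (𝓞 K)) : ℕ) : 𝓞 K) ∈ 𝔮.asIdeal :=
      hle (by exact_mod_cast Ideal.absNorm_mem (𝔞 : Ideal (𝓞 K)))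
    have h2 : Ideal.absNorm (𝔞 : Ideal (𝓞 K)) ∣
        ∏ C : ClassGroup (𝓞 K), Ideal.absNorm ((rep C : nonZeroDivisors (Ideal (𝓞 K))) :
          Ideal (𝓞 K)) :=
      Finset.dvd_prod_of_mem _ (Finset.mem_univ _)
    obtain ⟨m, hm⟩ := h2
    rw [hm, Nat.cast_mul]
    exact Ideal.mul_mem_right _ _ h1
  -- the product is principal
  have hprod : (𝔭.asIdeal * (𝔞 : Ideal (𝓞 K))) ∈ nonZeroDivisors (Ideal (𝓞 K)) :=
    mul_mem h𝔭0 𝔞.2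
  have hone : ClassGroup.mk0 ⟨𝔭.asIdeal * (𝔞 : Ideal (𝓞 K)), hprod⟩ = 1 := by
    have : (⟨𝔭.asIdeal * (𝔞 : Ideal (𝓞 K)), hprod⟩ : nonZeroDivisors (Ideal (𝓞 K)))
        = ⟨𝔭.asIdeal, h𝔭0⟩ * 𝔞 := rfl
    rw [this, map_mul, h𝔞cls, mul_inv_cancel]
  obtain ⟨π, hπ⟩ := ((ClassGroup.mk0_eq_one_iff hprod).1 hone).principal
  have hπ' : 𝔭.asIdeal * (𝔞 : Ideal (𝓞 K)) = Ideal.span {π} := hπ
  have hmem : ∀ I : Ideal (𝓞 K), π ∈ I ↔ 𝔭.asIdeal * (𝔞 : Ideal (𝓞 K)) ≤ I := by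
    intro I
    rw [hπ', Ideal.span_singleton_le_iff_mem]
  refine ⟨π, ?_, ?_, ?_⟩
  · rw [hmem]
    exact Ideal.mul_le_left (I := 𝔭.asIdeal) (J := (𝔞 : Ideal (𝓞 K)))
  · intro h
    rw [hmem, ← Ideal.dvd_iff_le, pow_two] at h
    have h2 : 𝔭.asIdeal ∣ (𝔞 : Ideal (𝓞 K)) :=
      (mul_dvd_mul_iff_left 𝔭.ne_bot).1 h
    exact hnotle 𝔭 hN (Ideal.dvd_iff_le.1 h2)
  · intro 𝔮 hne h𝔮 h
    rw [hmem, 𝔮.isPrime.mul_le] at h
    rcases h with h | h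
    · apply hne
      have := 𝔭.isMaximal.eq_of_le 𝔮.isPrime.ne_top h
      exact (HeightOneSpectrum.ext this).symm
    · exact hnotle 𝔮 h𝔮 h

end Fermat.Agent.S56.Euler.H74
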