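import Fermat.Agent.S55.Bridge.PlacePrime
import Fermat.Agent.S55.Bridge.Restrict

/-!
# S56 / W-BASE, leaf EUL-CL (helper74), part B0: elementary facts on valuation subrings of `ℚ̄`

* `val_natCast_eq_one`   : a nonzero natural number none of whose prime factors lies under `A`
                            is a unit of `A`;
* `mem_of_no_prime`      : a valuation subring lying over no prime is everything;
* `exists_unit_away`     : every `a ∈ ℚ̄ˣ` is a unit at all places over primes not dividing some
                            `M ≠ 0`;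
* `prime_unique`         : a valuation subring lies over at most one prime.
-/

set_option autoImplicit false
set_option linter.style.haveILetI false

namespace Fermat.Agent.S56.Euler.H74

open Fermat.Agent.S55.Bridge Fermat.Agent.S54

local notation "Qb" => AlgebraicClosure ℚ
local notation "GQ" => (AlgebraicClosure ℚ ≃ₐ[ℚ] AlgebraicClosure ℚ)

variable (A : ValuationSubring Qb)

/-- A natural number is in `A`. -/
lemma val_natCast_le_one (n : ℕ) : A.valuation (n : Qb) ≤ 1 :=
  (A.valuation_le_one_iff _).mpr (natCast_mem A n)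

/-- A nonzero natural number none of whose prime factors lies under `A` is a unit of `A`. -/
theorem val_natCast_eq_one (m : ℕ) (hm : m ≠ 0)
    (h : ∀ q : ℕ, q.Prime → q ∣ m → ¬ A.LiesOverPrime q) : A.valuation (m : Qb) = 1 := by
  induction m using Nat.recOnMul with
  | zero => exact absurd rfl hm
  | one => simp
  | prime p hp =>
    have h1 := h p hp dvd_rfl
    have h2 : ¬ A.valuation (p : Qb) < 1 := fun hlt => h1 ((A.mem_nonunits_iff).2 hlt)
    exact le_antisymm (val_natCast_le_one A p) (not_lt.1 h2)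
  | mul a b iha ihb =>
    have ha : a ≠ 0 := fun h0 => hm (by rw [h0, zero_mul])
    have hb : b ≠ 0 := fun h0 => hm (by rw [h0, mul_zero])
    rw [Nat.cast_mul, map_mul,
      iha ha (fun q hq hqa => h q hq (Dvd.dvd.mul_right hqa b)),
      ihb hb (fun q hq hqb => h q hq (Dvd.dvd.mul_left hqb a)), mul_one]

/-- A valuation subring lies over at most one prime. -/
theorem prime_unique {q q' : ℕ} (hq : q.Prime) (hq' : q'.Prime) (hA : A.LiesOverPrime q)
    (hA' : A.LiesOverPrime q') : q = q' := by
  by_contra hne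
  have h1 := val_prime_eq_one (A := A) hA hq hq' hne
  have h2 : A.valuation (q' : Qb) < 1 := (A.mem_nonunits_iff).1 hA'
  rw [h1] at h2
  exact lt_irrefl _ h2

/-- If `A` lies over `q` and `q ∤ m`, `m ≠ 0`, then `m` is a unit of `A`. -/
theorem val_natCast_eq_one_of_not_dvd {q : ℕ} (hq : q.Prime) (hA : A.LiesOverPrime q)
    (m : ℕ) (hqm : ¬ q ∣ m) : A.valuation (m : Qb) = 1 := by
  have hm : m ≠ 0 := fun h0 => hqm (by rw [h0]; exact dvd_zero q)
  refine val_natCast_eq_one A m hm (fun q' hq' hq'm hA' => ?_)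
  have := prime_unique A hq hq' hA hA'
  exact hqm (this ▸ hq'm)

/-- Integral multiples: every `x ∈ ℚ̄` has a nonzero natural multiple which is integral. -/
theorem exists_nat_mul_integral (x : Qb) :
    ∃ m : ℕ, m ≠ 0 ∧ IsIntegral ℤ ((m : Qb) * x) := by
  have halg : IsAlgebraic ℚ x := (AlgebraicClosure.isAlgebraic ℚ).isAlgebraic x
  have halg' : IsAlgebraic ℤ x := (IsFractionRing.isAlgebraic_iff ℤ ℚ Qb).2 halg
  obtain ⟨y, hy, hint⟩ := halg'.exists_integral_multiple
  refine ⟨y.natAbs, Int.natAbs_ne_zero.2 hy, ?_⟩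
  rcases Int.natAbs_eq y with h | h
  · have : ((y.natAbs : ℕ) : Qb) * x = y • x := by
      rw [zsmul_eq_mul]
      congr 1
      conv_rhs => rw [h]
      simp
    rw [this]
    exact hint
  · have : ((y.natAbs : ℕ) : Qb) * x = -(y • x) := by
      rw [zsmul_eq_mul, ← neg_mul]
      congr 1
      conv_rhs => rw [h]
      simp
    rw [this]
    exact hint.neg

/-- If `m x` is integral and `m` is a unit of `A`, then `x ∈ A`. -/
theorem mem_of_mul_integral {x : Qb} {m : ℕ} (hint : IsIntegral ℤ ((m : Qb) * x))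
    (hm : A.valuation (m : Qb) = 1) : x ∈ A := by
  rw [← A.valuation_le_one_iff]
  have h1 : A.valuation ((m : Qb) * x) ≤ 1 :=
    (A.valuation_le_one_iff _).2 (isIntegral_mem_valuationSubring A hint)
  rwa [map_mul, hm, one_mul] at h1

/-- A valuation subring of `ℚ̄` lying over no prime is everything. -/
theorem mem_of_no_prime (h : ∀ q : ℕ, q.Prime → ¬ A.LiesOverPrime q) (x : Qb) : x ∈ A := by
  obtain ⟨m, hm, hint⟩ := exists_nat_mul_integral x
  exact mem_of_mul_integral A hint (val_natCast_eq_one A m hm (fun q hq _ => h q hq))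

/-- Every `a ∈ ℚ̄ˣ` is a unit at all places over primes not dividing some `M ≠ 0`. -/
theorem exists_unit_away (a : Qbˣ) :
    ∃ M : ℕ, M ≠ 0 ∧ ∀ (B : ValuationSubring Qb) (q : ℕ), q.Prime → B.LiesOverPrime q →
      ¬ q ∣ M → (a : Qb) ∈ B ∧ ((a⁻¹ : Qbˣ) : Qb) ∈ B := by
  obtain ⟨m, hm, hint⟩ := exists_nat_mul_integral (a : Qb)
  obtain ⟨m', hm', hint'⟩ := exists_nat_mul_integral ((a⁻¹ : Qbˣ) : Qb)
  refine ⟨m * m', Nat.mul_ne_zero hm hm', fun B q hq hB hqM => ⟨?_, ?_⟩⟩
  · exact mem_of_mul_integral B hint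
      (val_natCast_eq_one_of_not_dvd B hq hB m (fun h => hqM (Dvd.dvd.mul_right h m')))
  · exact mem_of_mul_integral B hint'
      (val_natCast_eq_one_of_not_dvd B hq hB m' (fun h => hqM (Dvd.dvd.mul_left h m)))

end Fermat.Agent.S56.Euler.H74
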